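import Mathlib.AlgebraicGeometry.EllipticCurve.Affine.Point

/-!
Isomorphisms of point groups induced by admissible changes of variables.
-/

set_option autoImplicit false

open WeierstrassCurve

namespace FLTA.EllIsogeny

section Field

variable {F : Type*} [Field F] (W : Affine F) (C : VariableChange F)

/-- `X`-coordinate of the image of a point of `C • W` in `W`. -/
def vcX (x : F) : F := (C.u : F) ^ 2 * x + C.r

/-- `Y`-coordinate of the image of a point of `C • W` in `W`. -/
def vcY (x y : F) : F := (C.u : F) ^ 3 * y + (C.u : F) ^ 2 * C.s * x + C.t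

theorem vc_equation (x y : F) :
    (C • W).toAffine.Equation x y ↔ W.Equation (vcX C x) (vcY C x y) := by
  have hu : (C.u : F) ≠ 0 := C.u.ne_zero
  have key : y ^ 2 + (C • W).a₁ * x * y + (C • W).a₃ * y
      - (x ^ 3 + (C • W).a₂ * x ^ 2 + (C • W).a₄ * x + (C • W).a₆)
      = ((C.u : F) ^ 6)⁻¹ * (vcY C x y ^ 2 + W.a₁ * vcX C x * vcY C x y + W.a₃ * vcY C x y
      - (vcX C x ^ 3 + W.a₂ * vcX C x ^ 2 + W.a₄ * vcX C x + W.a₆)) := by
    simp only [variableChange_def, vcX, vcY, Units.val_inv_eq_inv_val]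
    field_simp
    ring
  rw [Affine.equation_iff', Affine.equation_iff', key]
  simp [hu]

theorem vc_nonsingular (x y : F) :
    (C • W).toAffine.Nonsingular x y ↔ W.Nonsingular (vcX C x) (vcY C x y) := by
  have hu : (C.u : F) ≠ 0 := C.u.ne_zero
  have hY : 2 * y + (C • W).a₁ * x + (C • W).a₃
      = ((C.u : F) ^ 3)⁻¹ * (2 * vcY C x y + W.a₁ * vcX C x + W.a₃) := by
    simp only [variableChange_def, vcX, vcY, Units.val_inv_eq_inv_val]
    field_simp
    ring
  have hX : (C • W).a₁ * y - (3 * x ^ 2 + 2 * (C • W).a₂ * x + (C • W).a₄)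
      = ((C.u : F) ^ 4)⁻¹ *
        ((W.a₁ * vcY C x y - (3 * vcX C x ^ 2 + 2 * W.a₂ * vcX C x + W.a₄))
          + C.s * (2 * vcY C x y + W.a₁ * vcX C x + W.a₃)) := by
    simp only [variableChange_def, vcX, vcY, Units.val_inv_eq_inv_val]
    field_simp
    ring
  rw [Affine.nonsingular_iff', Affine.nonsingular_iff', vc_equation W C, hX, hY]
  refine and_congr_right fun _ => ?_
  by_cases h : 2 * vcY C x y + W.a₁ * vcX C x + W.a₃ = 0 <;> simp [h, hu]

theorem vcX_injective {x₁ x₂ : F} (h : vcX C x₁ = vcX C x₂) : x₁ = x₂ := by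
  simpa [vcX, C.u.ne_zero] using h

theorem vcY_injective {x y₁ y₂ : F} (h : vcY C x y₁ = vcY C x y₂) : y₁ = y₂ := by
  simpa [vcY, C.u.ne_zero] using h

theorem vc_negY (x y : F) :
    W.negY (vcX C x) (vcY C x y) = vcY C x ((C • W).toAffine.negY x y) := by
  have hu : (C.u : F) ≠ 0 := C.u.ne_zero
  simp only [Affine.negY, variableChange_def, vcX, vcY, Units.val_inv_eq_inv_val]
  field_simp
  ring

variable [DecidableEq F]

theorem vc_slope {x₁ x₂ y₁ y₂ : F} (h₁ : (C • W).toAffine.Equation x₁ y₁)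
    (h₂ : (C • W).toAffine.Equation x₂ y₂)
    (hxy : ¬(x₁ = x₂ ∧ y₁ = (C • W).toAffine.negY x₂ y₂)) :
    W.slope (vcX C x₁) (vcX C x₂) (vcY C x₁ y₁) (vcY C x₂ y₂)
      = (C.u : F) * (C • W).toAffine.slope x₁ x₂ y₁ y₂ + C.s := by
  have hu : (C.u : F) ≠ 0 := C.u.ne_zero
  by_cases hx : x₁ = x₂
  · subst hx
    have hy : y₁ ≠ (C • W).toAffine.negY x₁ y₂ := fun h => hxy ⟨rfl, h⟩
    have hyy : y₁ = y₂ := Affine.Y_eq_of_Y_ne h₁ h₂ rfl hy
    subst hyy
    have hy' : vcY C x₁ y₁ ≠ W.negY (vcX C x₁) (vcY C x₁ y₁) := by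
      rw [vc_negY]
      exact fun h => hy (vcY_injective C h)
    rw [Affine.slope_of_Y_ne rfl hy, Affine.slope_of_Y_ne rfl hy']
    have hd : vcY C x₁ y₁ - W.negY (vcX C x₁) (vcY C x₁ y₁)
        = (C.u : F) ^ 3 * (y₁ - (C • W).toAffine.negY x₁ y₁) := by
      rw [vc_negY, vcY, vcY]; ring
    have hn : 3 * vcX C x₁ ^ 2 + 2 * W.a₂ * vcX C x₁ + W.a₄ - W.a₁ * vcY C x₁ y₁
        = (C.u : F) ^ 4 * (3 * x₁ ^ 2 + 2 * (C • W).a₂ * x₁ + (C • W).a₄ - (C • W).a₁ * y₁)
          + C.s * ((C.u : F) ^ 3 * (y₁ - (C • W).toAffine.negY x₁ y₁)) := by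
      simp only [Affine.negY, variableChange_def, vcX, vcY, Units.val_inv_eq_inv_val]
      field_simp
      ring
    rw [hd, hn]
    have hd0 : y₁ - (C • W).toAffine.negY x₁ y₁ ≠ 0 := sub_ne_zero.mpr hy
    generalize y₁ - (C • W).toAffine.negY x₁ y₁ = d at hd0 ⊢
    generalize 3 * x₁ ^ 2 + 2 * (C • W).a₂ * x₁ + (C • W).a₄ - (C • W).a₁ * y₁ = n
    field_simp
  · have hx' : vcX C x₁ ≠ vcX C x₂ := fun h => hx (vcX_injective C h)
    rw [Affine.slope_of_X_ne hx, Affine.slope_of_X_ne hx']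
    have hd : x₁ - x₂ ≠ 0 := sub_ne_zero.mpr hx
    rw [show vcY C x₁ y₁ - vcY C x₂ y₂ = (C.u : F) ^ 3 * (y₁ - y₂)
        + (C.u : F) ^ 2 * C.s * (x₁ - x₂) by simp only [vcY]; ring,
      show vcX C x₁ - vcX C x₂ = (C.u : F) ^ 2 * (x₁ - x₂) by simp only [vcX]; ring]
    generalize x₁ - x₂ = d at hd ⊢
    field_simp

/-- The map on points induced by a change of variables. -/
def vcPointMap : (C • W).toAffine.Point → W.Point
  | 0 => 0
  | .some x y h => .some (vcX C x) (vcY C x y) ((vc_nonsingular W C x y).mp h)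

theorem vcPointMap_add (P Q : (C • W).toAffine.Point) :
    vcPointMap W C (P + Q) = vcPointMap W C P + vcPointMap W C Q := by
  have hu : (C.u : F) ≠ 0 := C.u.ne_zero
  rcases P, Q with ⟨_ | ⟨x₁, y₁, h₁⟩, _ | ⟨x₂, y₂, h₂⟩⟩
  any_goals rfl
  by_cases hxy : x₁ = x₂ ∧ y₁ = (C • W).toAffine.negY x₂ y₂
  · rw [Affine.Point.add_of_Y_eq hxy.1 hxy.2]
    simp only [vcPointMap]
    rw [Affine.Point.add_of_Y_eq (by rw [hxy.1]) (by rw [vc_negY, hxy.1, hxy.2])]
  · have hxy' : ¬(vcX C x₁ = vcX C x₂ ∧ vcY C x₁ y₁ = W.negY (vcX C x₂) (vcY C x₂ y₂)) := by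
      rintro ⟨hx, hy⟩
      have hx0 := vcX_injective C hx
      rw [vc_negY, hx0] at hy
      exact hxy ⟨hx0, vcY_injective C hy⟩
    rw [Affine.Point.add_some hxy]
    simp only [vcPointMap]
    rw [Affine.Point.add_some hxy']
    have hs := vc_slope W C h₁.1 h₂.1 hxy
    have hx3 : vcX C ((C • W).toAffine.addX x₁ x₂ ((C • W).toAffine.slope x₁ x₂ y₁ y₂))
        = W.addX (vcX C x₁) (vcX C x₂) (W.slope (vcX C x₁) (vcX C x₂) (vcY C x₁ y₁) (vcY C x₂ y₂)) := by
      rw [hs]
      simp only [Affine.addX, variableChange_def, vcX, Units.val_inv_eq_inv_val]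
      field_simp
      ring
    have hy3 : vcY C ((C • W).toAffine.addX x₁ x₂ ((C • W).toAffine.slope x₁ x₂ y₁ y₂))
          ((C • W).toAffine.addY x₁ x₂ y₁ ((C • W).toAffine.slope x₁ x₂ y₁ y₂))
        = W.addY (vcX C x₁) (vcX C x₂) (vcY C x₁ y₁)
            (W.slope (vcX C x₁) (vcX C x₂) (vcY C x₁ y₁) (vcY C x₂ y₂)) := by
      rw [Affine.addY, Affine.addY, ← vc_negY, hx3]
      congr 1
      rw [Affine.negAddY, Affine.negAddY, ← hx3, hs]
      simp only [vcX, vcY]
      ring
    simp only [Affine.Point.some.injEq]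
    exact ⟨hx3, hy3⟩

theorem vcPointMap_bijective : Function.Bijective (vcPointMap W C) := by
  have hu : (C.u : F) ≠ 0 := C.u.ne_zero
  constructor
  · rintro (_ | ⟨x₁, y₁, h₁⟩) (_ | ⟨x₂, y₂, h₂⟩) h
    · rfl
    · exact absurd h (by simp [vcPointMap])
    · exact absurd h (by simp [vcPointMap])
    · simp only [vcPointMap, Affine.Point.some.injEq] at h
      have hx := vcX_injective C h.1
      subst hx
      have hy := vcY_injective C h.2
      subst hy
      rfl
  · rintro (_ | ⟨X, Y, h⟩)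
    · exact ⟨0, rfl⟩
    · have hx : vcX C ((X - C.r) / (C.u : F) ^ 2) = X := by simp only [vcX]; field_simp; ring
      have hy : vcY C ((X - C.r) / (C.u : F) ^ 2)
          ((Y - C.s * (X - C.r) - C.t) / (C.u : F) ^ 3) = Y := by
        simp only [vcY]; field_simp; ring
      exact ⟨.some _ _ ((vc_nonsingular W C _ _).mpr (by rw [hx, hy]; exact h)),
        by simp only [vcPointMap, Affine.Point.some.injEq]; exact ⟨hx, hy⟩⟩

/-- The isomorphism of point groups `(C • W)(F) ≃+ W(F)`. -/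
noncomputable def vcPointEquiv : (C • W).toAffine.Point ≃+ W.Point :=
  AddEquiv.ofBijective (AddMonoidHom.mk' (vcPointMap W C) (vcPointMap_add W C))
    (vcPointMap_bijective W C)

@[simp]
theorem vcPointEquiv_some {x y : F} (h : (C • W).toAffine.Nonsingular x y) :
    vcPointEquiv W C (.some x y h)
      = .some (vcX C x) (vcY C x y) ((vc_nonsingular W C x y).mp h) :=
  rfl

variable {W C}

/-- `vcPointEquiv` along a propositional equality `C • W = W'`. -/
noncomputable def vcPointEquivOfEq {W' : Affine F} (h : C • W = W') : W'.Point ≃+ W.Point :=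
  h ▸ vcPointEquiv W C

theorem vc_nonsingular_of_eq {W' : Affine F} (h : C • W = W') {x y : F}
    (hP : W'.Nonsingular x y) : W.Nonsingular (vcX C x) (vcY C x y) := by
  subst h; exact (vc_nonsingular W C x y).mp hP

theorem vcPointEquivOfEq_some {W' : Affine F} (h : C • W = W') {x y : F}
    (hP : W'.Nonsingular x y) :
    vcPointEquivOfEq h (.some x y hP) = .some (vcX C x) (vcY C x y) (vc_nonsingular_of_eq h hP) := by
  subst h; rfl

end Field

section BaseChange

variable {F : Type*} [Field F] (W : WeierstrassCurve F) (C : VariableChange F)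

theorem baseChange_smul (K : Type*) [Field K] [Algebra F K] :
    C.map (algebraMap F K) • (W.map (algebraMap F K)) = (C • W).map (algebraMap F K) :=
  WeierstrassCurve.map_variableChange W C (algebraMap F K)

/-- The isomorphism `(C • W)(K) ≃+ W(K)` over an extension field `K`. -/
noncomputable def vcBaseEquiv (K : Type*) [Field K] [DecidableEq K] [Algebra F K] :
    ((C • W).toAffine.baseChange K).Point ≃+ (W.toAffine.baseChange K).Point :=
  vcPointEquivOfEq (baseChange_smul W C K)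

theorem vcBaseEquiv_map {K L : Type*} [Field K] [DecidableEq K] [Algebra F K] [Field L]
    [DecidableEq L] [Algebra F L] (f : K →ₐ[F] L)
    (P : ((C • W).toAffine.baseChange K).Point) :
    Affine.Point.map f (vcBaseEquiv W C K P) = vcBaseEquiv W C L (Affine.Point.map f P) := by
  rcases P with _ | ⟨x, y, h⟩
  · simp [← Affine.Point.zero_def]
  · rw [Affine.Point.map_some, vcBaseEquiv, vcBaseEquiv, vcPointEquivOfEq_some,
      vcPointEquivOfEq_some, Affine.Point.map_some]
    simp [vcX, vcY, VariableChange.map, Affine.Point.some.injEq]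

end BaseChange

end FLTA.EllIsogeny
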