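import Fermat.Prelude.Def_FLTPrelim_CofixedLine
import Fermat.Agent.EllIsogeny.Velu.Descent
import Fermat.Agent.EllTorsion.Card
import Mathlib.GroupTheory.OrderOfElement
import Mathlib.Algebra.Algebra.Rat
import Mathlib.AlgebraicGeometry.EllipticCurve.NormalForms

/-!
Quotient of an elliptic curve over `ℚ` by a Galois-stable subgroup of odd order.
-/

set_option autoImplicit false

open WeierstrassCurve WeierstrassCurve.Affine WeierstrassCurve.Affine.Point
open scoped WeierstrassCurve.Affine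

namespace FLTA.EllIsogeny

local notation "ℚbar" => AlgebraicClosure ℚ

/-- Vélu: the quotient by a finite Galois-stable subgroup of odd order, with its quotient map on
`ℚ̄`-points. -/
theorem exists_quotient (E : WeierstrassCurve ℚ) [E.IsElliptic]
    (N : AddSubgroup (E⁄ℚbar).Point) [Finite N] (hodd : Odd (Nat.card N))
    (hstab : ∀ σ : ℚbar ≃ₐ[ℚ] ℚbar, ∀ x ∈ N, σ • x ∈ N) :
    ∃ (E' : WeierstrassCurve ℚ) (_ : E'.IsElliptic) (φ : (E⁄ℚbar).Point →+ (E'⁄ℚbar).Point),
      φ.ker = N ∧ ∀ (σ : ℚbar ≃ₐ[ℚ] ℚbar) (P : (E⁄ℚbar).Point), φ (σ • P) = σ • φ P := by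
  haveI : Invertible (2 : ℚ) := invertibleOfNonzero two_ne_zero
  haveI : Invertible (3 : ℚ) := invertibleOfNonzero three_ne_zero
  obtain ⟨C, hC⟩ := WeierstrassCurve.exists_variableChange_isShortNF E
  haveI := hC
  let e := vcBaseEquiv E C ℚbar
  have he : ∀ (σ : ℚbar ≃ₐ[ℚ] ℚbar) P, e (σ • P) = σ • e P := fun σ P =>
    (vcBaseEquiv_map E C σ.toAlgHom P).symm
  have hes : ∀ (σ : ℚbar ≃ₐ[ℚ] ℚbar) P, e.symm (σ • P) = σ • e.symm P := fun σ P =>
    e.injective (by rw [he, e.apply_symm_apply, e.apply_symm_apply])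
  let M : AddSubgroup ((C • E)⁄ℚbar).Point := N.comap e.toAddMonoidHom
  let eM : M ≃ N :=
    { toFun := fun x => ⟨e x, x.2⟩
      invFun := fun x => ⟨e.symm x, by
        show e (e.symm (x : (E⁄ℚbar).Point)) ∈ N
        rw [e.apply_symm_apply]; exact x.2⟩
      left_inv := fun x => Subtype.ext (e.symm_apply_apply _)
      right_inv := fun x => Subtype.ext (e.apply_symm_apply _) }
  haveI : Finite M := Finite.of_equiv N eM.symm
  obtain ⟨E', hE', φ, hker, hφ⟩ := Velu.exists_quotient_short (C • E) M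
    (by rwa [Nat.card_congr eM]) (fun σ x hx => by
      show e (σ • x) ∈ N
      rw [he]; exact hstab σ _ hx)
  refine ⟨E', hE', φ.comp e.symm.toAddMonoidHom, ?_, fun σ P => ?_⟩
  · ext x
    rw [AddMonoidHom.mem_ker, AddMonoidHom.comp_apply]
    show φ (e.symm x) = 0 ↔ _
    rw [← AddMonoidHom.mem_ker, hker]
    show e (e.symm x) ∈ N ↔ _
    rw [e.apply_symm_apply]
  · show φ (e.symm (σ • P)) = σ • φ (e.symm P)
    rw [hes, hφ]

/-- A point over `ℚ̄` fixed by Galois comes from a rational point. -/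
theorem exists_rat_point_of_fixed (E : WeierstrassCurve ℚ) {Q : (E⁄ℚbar).Point}
    (hQ : ∀ σ : ℚbar ≃ₐ[ℚ] ℚbar, σ • Q = Q) :
    ∃ R : E.toAffine.Point, Affine.Point.baseChange (W' := E) ℚ ℚbar R = Q := by
  haveI := Velu.qbar_galois
  rcases Q with _ | ⟨x, y, h⟩
  · exact ⟨0, rfl⟩
  · have hxy : ∀ σ : ℚbar ≃ₐ[ℚ] ℚbar, σ x = x ∧ σ y = y := fun σ => by
      have := hQ σ
      rw [algEquiv_smul_def, Affine.Point.map_some, Affine.Point.some.injEq] at this
      exact this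
    obtain ⟨a, rfl⟩ := (InfiniteGalois.mem_range_algebraMap_iff_fixed x).mpr fun σ => (hxy σ).1
    obtain ⟨b, rfl⟩ := (InfiniteGalois.mem_range_algebraMap_iff_fixed y).mpr fun σ => (hxy σ).2
    exact ⟨.some a b ((E.toAffine.baseChange_nonsingular (f := Algebra.ofId ℚ ℚbar)
      (algebraMap ℚ ℚbar).injective a b).mp h), rfl⟩

/-- If `E[p]` has a stable line with trivial action on the quotient, some curve over `ℚ` has a
rational point of order `p`; full rational 2-torsion is inherited. -/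
theorem exists_ratPoint_of_cofixed (E : WeierstrassCurve ℚ) [E.IsElliptic] {p : ℕ}
    (hp : p.Prime) (hp2 : p ≠ 2)
    (h : HasGaloisStableCofixedLine (K := ℚbar) ℚ E p) :
    ∃ (E' : WeierstrassCurve ℚ) (_ : E'.IsElliptic),
      (∃ P : E'.toAffine.Point, addOrderOf P = p) ∧
      ((∃ T₁ T₂ : E.toAffine.Point, addOrderOf T₁ = 2 ∧ addOrderOf T₂ = 2 ∧ T₁ ≠ T₂) →
        ∃ T₁ T₂ : E'.toAffine.Point, addOrderOf T₁ = 2 ∧ addOrderOf T₂ = 2 ∧ T₁ ≠ T₂) := by
  haveI : Fact p.Prime := ⟨hp⟩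
  obtain ⟨L, hstab, -, htop, hquot⟩ := h
  have hcard := FLTA.EllTorsion.natCard_torsionBy_baseChange (K := ℚbar) E (n := p)
    (Nat.cast_ne_zero.mpr hp.ne_zero)
  haveI : Finite (Submodule.torsionBy ℤ (E⁄ℚbar).Point p) :=
    Nat.finite_of_card_ne_zero (by rw [hcard]; exact pow_ne_zero 2 hp.ne_zero)
  let ι : Submodule.torsionBy ℤ (E⁄ℚbar).Point p →+ (E⁄ℚbar).Point :=
    (Submodule.torsionBy ℤ (E⁄ℚbar).Point p).subtype.toAddMonoidHom
  let N : AddSubgroup (E⁄ℚbar).Point := L.toAddSubgroup.map ι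
  haveI : Finite N := Set.Finite.to_subtype ((Set.toFinite _).image ι)
  have hcardN : Nat.card N ∣ p ^ 2 := by
    have e : Nat.card N = Nat.card L.toAddSubgroup :=
      (Nat.card_congr (L.toAddSubgroup.equivMapOfInjective ι Subtype.coe_injective).toEquiv).symm
    rw [e, ← hcard]
    exact AddSubgroup.card_addSubgroup_dvd_card _
  have hoddN : Odd (Nat.card N) := by
    obtain ⟨i, -, hi⟩ := (Nat.dvd_prime_pow hp).mp hcardN
    rw [hi]
    exact (hp.odd_of_ne_two hp2).pow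
  obtain ⟨E', hE', φ, hker, hφ⟩ := exists_quotient E N hoddN (by
    rintro σ _ ⟨x, hx, rfl⟩
    exact ⟨σ • x, hstab σ x hx, rfl⟩)
  have hmem : ∀ x : Submodule.torsionBy ℤ (E⁄ℚbar).Point p, ι x ∈ φ.ker ↔ x ∈ L := by
    intro x
    rw [hker]
    exact AddSubgroup.mem_map_iff_mem (f := ι) Subtype.coe_injective
  refine ⟨E', hE', ?_, ?_⟩
  · obtain ⟨x, hx⟩ : ∃ x, x ∉ L := by
      by_contra! hall
      exact htop (eq_top_iff.mpr fun x _ => hall x)
    have hfix : ∀ σ : ℚbar ≃ₐ[ℚ] ℚbar, σ • φ (ι x) = φ (ι x) := by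
      intro σ
      rw [← hφ]
      have : φ (ι (σ • x - x)) = 0 := (hmem _).mpr (hquot σ x)
      rw [map_sub, map_sub, sub_eq_zero] at this
      exact this
    have hne : φ (ι x) ≠ 0 := fun h0 => hx ((hmem x).mp h0)
    have hord : addOrderOf (φ (ι x)) = p := by
      refine addOrderOf_eq_prime ?_ hne
      have hx' : (p : ℤ) • (x : (E⁄ℚbar).Point) = 0 :=
        (Submodule.mem_torsionBy_iff _ _).mp x.2
      rw [← map_nsmul, ← natCast_zsmul]
      show φ ((p : ℤ) • (x : (E⁄ℚbar).Point)) = 0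
      rw [hx', _root_.map_zero]
    obtain ⟨R, hR⟩ := exists_rat_point_of_fixed E' hfix
    exact ⟨R, by rw [← hord, ← hR]; exact (addOrderOf_injective _ (Affine.Point.map_injective _) R).symm⟩
  · rintro ⟨T₁, T₂, h₁, h₂, hne⟩
    let b : E.toAffine.Point →+ (E⁄ℚbar).Point := Affine.Point.baseChange (W' := E) ℚ ℚbar
    have hb : Function.Injective b := Affine.Point.map_injective _
    have hbfix : ∀ (σ : ℚbar ≃ₐ[ℚ] ℚbar) (T : E.toAffine.Point), σ • b T = b T := fun σ T =>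
      Affine.Point.map_baseChange (W' := E) (F := ℚ) σ.toAlgHom T
    have two_not : ∀ y : (E⁄ℚbar).Point, addOrderOf y = 2 → φ y ≠ 0 := by
      intro y hy h0
      have hmemN : y ∈ N := hker ▸ (AddMonoidHom.mem_ker.mpr h0)
      have := addOrderOf_dvd_natCard (⟨y, hmemN⟩ : N)
      rw [AddSubgroup.addOrderOf_mk, hy] at this
      exact (Nat.not_even_iff_odd.mpr hoddN) (even_iff_two_dvd.mpr this)
    have img : ∀ T : E.toAffine.Point, addOrderOf T = 2 →
        ∃ R : E'.toAffine.Point, addOrderOf R = 2 ∧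
          Affine.Point.baseChange (W' := E') ℚ ℚbar R = φ (b T) := by
      intro T hT
      have hbT : addOrderOf (b T) = 2 := (addOrderOf_injective b hb T).trans hT
      obtain ⟨R, hR⟩ := exists_rat_point_of_fixed E' (Q := φ (b T))
        (fun σ => by rw [← hφ, hbfix])
      refine ⟨R, ?_, hR⟩
      refine (addOrderOf_injective (Affine.Point.baseChange (W' := E') ℚ ℚbar)
        (Affine.Point.map_injective _) R).symm.trans ?_
      rw [hR]
      refine addOrderOf_eq_prime ?_ (two_not _ hbT)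
      rw [← map_nsmul, ← hbT, addOrderOf_nsmul_eq_zero, _root_.map_zero]
    obtain ⟨R₁, o₁, e₁⟩ := img T₁ h₁
    obtain ⟨R₂, o₂, e₂⟩ := img T₂ h₂
    refine ⟨R₁, R₂, o₁, o₂, fun h => ?_⟩
    subst h
    refine two_not (b (T₁ - T₂)) ?_ ?_
    · rw [addOrderOf_injective b hb]
      refine addOrderOf_eq_prime ?_ (sub_ne_zero.mpr hne)
      rw [nsmul_sub, ← h₁, addOrderOf_nsmul_eq_zero, h₁, ← h₂, addOrderOf_nsmul_eq_zero, sub_zero]
    · rw [map_sub, map_sub, ← e₁, ← e₂, sub_self]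

end FLTA.EllIsogeny
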