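import Fermat.Agent.EllIsogeny.VarChange
import Mathlib.GroupTheory.OrderOfElement
import Mathlib.Tactic.LinearCombination

/-!
Tate normal form and the multiples of its marked point.
-/

set_option autoImplicit false

open WeierstrassCurve

namespace FLTA.EllIsogeny

variable {F : Type*} [Field F]

/-- Tate's normal form `y² + (1 - c) x y - b y = x³ - b x²`. -/
def tateCurve (b c : F) : Affine F := ⟨1 - c, -b, -b, 0, 0⟩

@[simp] theorem tateCurve_a₁ (b c : F) : (tateCurve b c).a₁ = 1 - c := rfl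
@[simp] theorem tateCurve_a₂ (b c : F) : (tateCurve b c).a₂ = -b := rfl
@[simp] theorem tateCurve_a₃ (b c : F) : (tateCurve b c).a₃ = -b := rfl
@[simp] theorem tateCurve_a₄ (b c : F) : (tateCurve b c).a₄ = 0 := rfl
@[simp] theorem tateCurve_a₆ (b c : F) : (tateCurve b c).a₆ = 0 := rfl

theorem tateCurve_Δ (b c : F) :
    (tateCurve b c).Δ = b ^ 3 * (16 * b ^ 2 - 8 * b * c ^ 2 - 20 * b * c + b + c * (c - 1) ^ 3) := by
  simp only [WeierstrassCurve.Δ, WeierstrassCurve.b₂, WeierstrassCurve.b₄, WeierstrassCurve.b₆,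
    WeierstrassCurve.b₈, tateCurve]
  ring

theorem tate_nonsingular_origin {b : F} (hb : b ≠ 0) (c : F) :
    (tateCurve b c).Nonsingular 0 0 := by
  rw [Affine.nonsingular_zero]
  simp [hb]

/-- The marked point `(0, 0)`. -/
def tatePoint {b : F} (hb : b ≠ 0) (c : F) : (tateCurve b c).Point :=
  .some 0 0 (tate_nonsingular_origin hb c)

variable [DecidableEq F]

theorem add_chord {W : Affine F} {x₁ x₂ y₁ y₂ : F} {h₁ : W.Nonsingular x₁ y₁}
    {h₂ : W.Nonsingular x₂ y₂} (hx : x₁ ≠ x₂) {ℓ X Y : F} (hℓ : ℓ * (x₁ - x₂) = y₁ - y₂)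
    (hX : X = ℓ ^ 2 + W.a₁ * ℓ - W.a₂ - x₁ - x₂)
    (hY : Y = -(ℓ * (X - x₁) + y₁) - W.a₁ * X - W.a₃) :
    ∃ h : W.Nonsingular X Y, Affine.Point.some x₁ y₁ h₁ + .some x₂ y₂ h₂ = .some X Y h := by
  have hl : W.slope x₁ x₂ y₁ y₂ = ℓ := by
    rw [Affine.slope_of_X_ne hx, ← hℓ, mul_div_assoc, div_self (sub_ne_zero.mpr hx), mul_one]
  have hX' : W.addX x₁ x₂ (W.slope x₁ x₂ y₁ y₂) = X := by rw [hl, hX]; rfl
  have hY' : W.addY x₁ x₂ y₁ (W.slope x₁ x₂ y₁ y₂) = Y := by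
    rw [Affine.addY, Affine.negAddY, hX', hl, hY]; rfl
  refine ⟨?_, ?_⟩
  · rw [← hX', ← hY']; exact Affine.nonsingular_add h₁ h₂ fun h => hx h.1
  · rw [Affine.Point.add_of_X_ne hx, Affine.Point.some.injEq]
    exact ⟨hX', hY'⟩

/-- Every point of order `≥ 4` can be moved to `(0, 0)` on a curve in Tate normal form. -/
theorem exists_tateNF (W : Affine F) (P : W.Point) (h2 : 2 • P ≠ 0) (h3 : 3 • P ≠ 0) :
    ∃ (b c : F) (hb : b ≠ 0) (e : (tateCurve b c).Point ≃+ W.Point) (C : VariableChange F),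
      C • W = tateCurve b c ∧ e (tatePoint hb c) = P := by
  rcases P with _ | ⟨x₀, y₀, h₀⟩
  · exact absurd (by simp [← Affine.Point.zero_def]) h2
  have hy : y₀ ≠ W.negY x₀ y₀ := by
    intro hy
    exact h2 (by rw [two_nsmul, Affine.Point.add_self_of_Y_eq hy])
  set A3 : F := W.a₃ + x₀ * W.a₁ + 2 * y₀ with hA3def
  set A4 : F := W.a₄ + 2 * x₀ * W.a₂ - y₀ * W.a₁ + 3 * x₀ ^ 2 with hA4def
  have hA3 : A3 ≠ 0 := by
    intro h; apply hy; simp only [Affine.negY]; rw [hA3def] at h; linear_combination h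
  set s : F := A4 / A3 with hsdef
  have hs : s * A3 = A4 := div_mul_cancel₀ _ hA3
  set A2 : F := W.a₂ - s * W.a₁ + 3 * x₀ - s ^ 2 with hA2def
  have heq0 := (Affine.equation_iff' x₀ y₀).mp h₀.1
  have hsl : W.slope x₀ x₀ y₀ y₀ = s := by
    rw [Affine.slope_of_Y_ne rfl hy, hsdef, hA3def, hA4def, Affine.negY]
    congr 1 <;> ring
  have hA2 : A2 ≠ 0 := by
    intro h
    apply h3
    rw [show (3 : ℕ) = 2 + 1 from rfl, succ_nsmul, two_nsmul, Affine.Point.add_self_of_Y_ne hy]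
    have hX : W.addX x₀ x₀ (W.slope x₀ x₀ y₀ y₀) = x₀ := by
      rw [hsl, Affine.addX]; rw [hA2def] at h; linear_combination -h
    refine Affine.Point.add_of_Y_eq hX ?_
    rw [Affine.addY, Affine.negAddY, hX, sub_self, mul_zero, zero_add]
  let u : Fˣ := Units.mk0 (A3 / A2) (div_ne_zero hA3 hA2)
  let C : VariableChange F := ⟨u, x₀, s, y₀⟩
  have hu : (↑u⁻¹ : F) = A2 / A3 := by
    simp [u, Units.val_inv_eq_inv_val]
  obtain ⟨b, hbdef⟩ : ∃ b : F, b = -(A2 ^ 3 / A3 ^ 2) := ⟨_, rfl⟩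
  obtain ⟨c, hcdef⟩ : ∃ c : F, c = 1 - A2 / A3 * (W.a₁ + 2 * s) := ⟨_, rfl⟩
  have hb : b ≠ 0 := by
    rw [hbdef]; simp [hA2, hA3]
  have hC : C • W = tateCurve b c := by
    ext
    · simp [variableChange_def, C, hu, hcdef]
    · rw [variableChange_a₂, tateCurve_a₂, hu, hbdef,
        show W.a₂ - C.s * W.a₁ + 3 * C.r - C.s ^ 2 = A2 by simp [C, hA2def]]
      field_simp
    · rw [variableChange_a₃, tateCurve_a₃, hu, hbdef,
        show W.a₃ + C.r * W.a₁ + 2 * C.t = A3 by simp [C, hA3def]]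
      field_simp
    · rw [variableChange_a₄, tateCurve_a₄,
        show W.a₄ - C.s * W.a₃ + 2 * C.r * W.a₂ - (C.t + C.r * C.s) * W.a₁ + 3 * C.r ^ 2
          - 2 * C.s * C.t = A4 - s * A3 by simp only [C, hA3def, hA4def]; ring]
      simp [hs]
    · rw [variableChange_a₆, tateCurve_a₆,
        show W.a₆ + C.r * W.a₄ + C.r ^ 2 * W.a₂ + C.r ^ 3 - C.t * W.a₃ - C.t ^ 2
          - C.r * C.t * W.a₁ = -(y₀ ^ 2 + W.a₁ * x₀ * y₀ + W.a₃ * y₀
            - (x₀ ^ 3 + W.a₂ * x₀ ^ 2 + W.a₄ * x₀ + W.a₆)) by simp only [C]; ring, heq0]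
      simp
  refine ⟨b, c, hb, vcPointEquivOfEq hC, C, hC, ?_⟩
  rw [tatePoint, vcPointEquivOfEq_some]
  simp [vcX, vcY, C]

variable {b c : F} (hb : b ≠ 0)

theorem tate_two_nsmul :
    ∃ h, 2 • tatePoint hb c = Affine.Point.some (W' := tateCurve b c) b (b * c) h := by
  have hy : (0 : F) ≠ (tateCurve b c).negY 0 0 := by simp [hb, eq_comm]
  have hsl : (tateCurve b c).slope 0 0 0 0 = 0 := by
    rw [Affine.slope_of_Y_ne rfl hy]; simp
  have hX : (tateCurve b c).addX 0 0 ((tateCurve b c).slope 0 0 0 0) = b := by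
    rw [hsl]; simp
  have hY : (tateCurve b c).addY 0 0 0 ((tateCurve b c).slope 0 0 0 0) = b * c := by
    rw [Affine.addY, Affine.negAddY, hX, hsl]; simp; ring
  refine ⟨?_, ?_⟩
  · have := Affine.nonsingular_add (tate_nonsingular_origin hb c) (tate_nonsingular_origin hb c)
      fun h => hy h.2
    rwa [hX, hY] at this
  · rw [two_nsmul, tatePoint, Affine.Point.add_self_of_Y_ne hy, Affine.Point.some.injEq]
    exact ⟨hX, hY⟩

theorem tate_three_nsmul :
    ∃ h, 3 • tatePoint hb c = Affine.Point.some (W' := tateCurve b c) c (b - c) h := by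
  obtain ⟨h2, e2⟩ := tate_two_nsmul (c := c) hb
  obtain ⟨h, e⟩ := add_chord (h₁ := h2) (h₂ := tate_nonsingular_origin hb c) hb (ℓ := c)
    (X := c) (Y := b - c) (by ring) (by simp; ring) (by simp; ring)
  exact ⟨h, by rw [show (3 : ℕ) = 2 + 1 from rfl, succ_nsmul, e2]; exact e⟩

theorem tate_neg :
    ∃ h, -tatePoint hb c = Affine.Point.some (W' := tateCurve b c) 0 b h := by
  refine ⟨?_, ?_⟩
  swap
  · rw [tatePoint, Affine.Point.neg_some, Affine.Point.some.injEq]; simp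
  · have := (Affine.nonsingular_neg (W' := tateCurve b c) 0 0).mpr (tate_nonsingular_origin hb c)
    simpa using this

variable {r : F}

theorem tate_four_nsmul (hbc : b = r * c) (hr : r ≠ 1) (hc : c ≠ 0) :
    ∃ h, 4 • tatePoint hb c =
      Affine.Point.some (W' := tateCurve b c) (r * (r - 1)) (r ^ 2 * (c - r + 1)) h := by
  obtain ⟨h3, e3⟩ := tate_three_nsmul (c := c) hb
  obtain ⟨h, e⟩ := add_chord (h₁ := h3) (h₂ := tate_nonsingular_origin hb c) hc (ℓ := r - 1)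
    (X := r * (r - 1)) (Y := r ^ 2 * (c - r + 1))
    (by rw [hbc]; ring) (by simp [hbc]; ring) (by simp [hbc]; ring)
  exact ⟨h, by rw [show (4 : ℕ) = 3 + 1 from rfl, succ_nsmul, e3]; exact e⟩

variable {s : F}

theorem tate_five_nsmul (hbc : b = r * c) (hcs : c = s * (r - 1)) (hne : b ≠ c) :
    ∃ h, 5 • tatePoint hb c =
      Affine.Point.some (W' := tateCurve b c) (r * s * (s - 1)) (r * s ^ 2 * (r - s)) h := by
  obtain ⟨h2, e2⟩ := tate_two_nsmul (c := c) hb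
  obtain ⟨h3, e3⟩ := tate_three_nsmul (c := c) hb
  obtain ⟨h, e⟩ := add_chord (h₁ := h2) (h₂ := h3) hne (ℓ := r * s - 1)
    (X := r * s * (s - 1)) (Y := r * s ^ 2 * (r - s))
    (by rw [hbc, hcs]; ring) (by simp [hbc, hcs]; ring) (by simp [hbc, hcs]; ring)
  exact ⟨h, by rw [show (5 : ℕ) = 2 + 3 from rfl, add_nsmul, e2, e3]; exact e⟩

theorem tate_six_nsmul (hbc : b = r * c) (hcs : c = s * (r - 1)) (hne : b ≠ c) (hs : s ≠ 1) :
    ∃ y h, 6 • tatePoint hb c = Affine.Point.some (W' := tateCurve b c)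
      ((s * (r - s) / (s - 1)) ^ 2 + (1 - c) * (s * (r - s) / (s - 1)) + b - r * s * (s - 1)) y h := by
  have hrs : r * s ≠ 0 := fun h => hb <| by
    rw [hbc, hcs]; linear_combination (r - 1) * h
  have hs' : s - 1 ≠ 0 := sub_ne_zero.mpr hs
  obtain ⟨h5, e5⟩ := tate_five_nsmul hb hbc hcs hne
  obtain ⟨h, e⟩ := add_chord (h₁ := h5) (h₂ := tate_nonsingular_origin hb c) (mul_ne_zero hrs hs')
    (ℓ := s * (r - s) / (s - 1))
    (X := (s * (r - s) / (s - 1)) ^ 2 + (1 - c) * (s * (r - s) / (s - 1)) + b - r * s * (s - 1))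
    (by field_simp; ring) (by simp) rfl
  exact ⟨_, h, by rw [show (6 : ℕ) = 5 + 1 from rfl, succ_nsmul, e5]; exact e⟩

theorem tate_seven_nsmul (hbc : b = r * c) (hcs : c = s * (r - 1)) (hne : b ≠ c) (hrs : r ≠ s) :
    ∃ y h, 7 • tatePoint hb c = Affine.Point.some (W' := tateCurve b c)
      (((r ^ 2 * s - r ^ 2 - r * s + s) / (r - s)) ^ 2
        + (1 - c) * ((r ^ 2 * s - r ^ 2 - r * s + s) / (r - s)) + b - c - r * (r - 1)) y h := by
  have hr : r ≠ 1 := fun h => hne (by rw [hbc, h, one_mul])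
  have hc : c ≠ 0 := fun h => hb (by rw [hbc, h, mul_zero])
  have hx : r * (r - 1) ≠ c := fun h => hrs <| by
    have : (r - s) * (r - 1) = 0 := by linear_combination h + hcs
    rcases mul_eq_zero.mp this with h' | h'
    · exact sub_eq_zero.mp h'
    · exact absurd (sub_eq_zero.mp h') hr
  have hd : r - s ≠ 0 := sub_ne_zero.mpr hrs
  obtain ⟨h4, e4⟩ := tate_four_nsmul hb hbc hr hc
  obtain ⟨h3, e3⟩ := tate_three_nsmul (c := c) hb
  obtain ⟨h, e⟩ := add_chord (h₁ := h4) (h₂ := h3) hx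
    (ℓ := (r ^ 2 * s - r ^ 2 - r * s + s) / (r - s))
    (X := ((r ^ 2 * s - r ^ 2 - r * s + s) / (r - s)) ^ 2
        + (1 - c) * ((r ^ 2 * s - r ^ 2 - r * s + s) / (r - s)) + b - c - r * (r - 1))
    (by rw [hbc, hcs]; field_simp; ring) (by simp; ring) rfl
  exact ⟨_, h, by rw [show (7 : ℕ) = 4 + 3 from rfl, add_nsmul, e4, e3]; exact e⟩

theorem tate_eight_nsmul (hbc : b = r * c) (hcs : c = s * (r - 1)) (hne : b ≠ c)
    (hd : r * s - 2 * r + 1 ≠ 0) :
    ∃ y h, 8 • tatePoint hb c = Affine.Point.some (W' := tateCurve b c)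
      (((r * s * (r - s) - (r - 1) ^ 2) / (r * s - 2 * r + 1)) ^ 2
        + (1 - c) * ((r * s * (r - s) - (r - 1) ^ 2) / (r * s - 2 * r + 1))
        + b - c - r * s * (s - 1)) y h := by
  have hs : s ≠ 0 := fun h => hb (by rw [hbc, hcs, h, zero_mul, mul_zero])
  have hx : r * s * (s - 1) ≠ c := fun h => mul_ne_zero hs hd (by linear_combination h + hcs)
  obtain ⟨h5, e5⟩ := tate_five_nsmul hb hbc hcs hne
  obtain ⟨h3, e3⟩ := tate_three_nsmul (c := c) hb
  obtain ⟨h, e⟩ := add_chord (h₁ := h5) (h₂ := h3) hx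
    (ℓ := (r * s * (r - s) - (r - 1) ^ 2) / (r * s - 2 * r + 1))
    (X := ((r * s * (r - s) - (r - 1) ^ 2) / (r * s - 2 * r + 1)) ^ 2
        + (1 - c) * ((r * s * (r - s) - (r - 1) ^ 2) / (r * s - 2 * r + 1))
        + b - c - r * s * (s - 1))
    (by rw [div_mul_eq_mul_div, div_eq_iff hd, hbc, hcs]; ring) (by simp; ring) rfl
  exact ⟨_, h, by rw [show (8 : ℕ) = 5 + 3 from rfl, add_nsmul, e5, e3]; exact e⟩

end FLTA.EllIsogeny
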