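import Fermat.Agent.EllIsogeny.Tate

/-!
Relations on Tate parameters imposed by the order of the marked point.
-/

set_option autoImplicit false

open WeierstrassCurve

namespace FLTA.EllIsogeny

variable {F : Type*} [Field F] [DecidableEq F] {b c : F} (hb : b ≠ 0)

theorem nsmul_ne_zero_of_lt {n k : ℕ} (h : addOrderOf (tatePoint hb c) = n) (hk : 0 < k)
    (hkn : k < n) : k • tatePoint hb c ≠ 0 := fun h0 => by
  have := Nat.le_of_dvd hk (addOrderOf_dvd_iff_nsmul_eq_zero.mpr h0)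
  omega

theorem nsmul_eq_neg_nsmul {n i j : ℕ} (h : addOrderOf (tatePoint hb c) = n) (hij : i + j = n) :
    i • tatePoint hb c = -(j • tatePoint hb c) := by
  rw [eq_neg_iff_add_eq_zero, ← add_nsmul, hij, ← h, addOrderOf_nsmul_eq_zero]

theorem tate_four_eq_zero (hc : c = 0) : 4 • tatePoint hb c = 0 := by
  obtain ⟨h3, e3⟩ := tate_three_nsmul (c := c) hb
  rw [show (4 : ℕ) = 3 + 1 from rfl, succ_nsmul, e3, tatePoint]
  exact Affine.Point.add_of_Y_eq hc (by simp [hc])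

theorem tate_five_eq_zero (hc : b = c) : 5 • tatePoint hb c = 0 := by
  obtain ⟨h3, e3⟩ := tate_three_nsmul (c := c) hb
  obtain ⟨h2, e2⟩ := tate_two_nsmul (c := c) hb
  rw [show (5 : ℕ) = 2 + 3 from rfl, add_nsmul, e2, e3]
  exact Affine.Point.add_of_Y_eq hc (by simp; linear_combination c * hc)

theorem tate_six_eq_zero (hc : b - c = c ^ 2) : 6 • tatePoint hb c = 0 := by
  obtain ⟨h3, e3⟩ := tate_three_nsmul (c := c) hb
  rw [show (6 : ℕ) = 3 + 3 from rfl, add_nsmul, e3]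
  exact Affine.Point.add_self_of_Y_eq (by simp; linear_combination hc)

/-- Order `5` forces `b = c`. -/
theorem tate_order_five (h : addOrderOf (tatePoint hb c) = 5) : b = c := by
  obtain ⟨h3, e3⟩ := tate_three_nsmul (c := c) hb
  obtain ⟨h2, e2⟩ := tate_two_nsmul (c := c) hb
  have e := nsmul_eq_neg_nsmul hb h (show 2 + 3 = 5 from rfl)
  rw [e2, e3, Affine.Point.neg_some, Affine.Point.some.injEq] at e
  exact e.1

/-- Order `≥ 6`: parameters `b = r s (r - 1)`, `c = s (r - 1)`. -/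
theorem exists_tate_rs {n : ℕ} (h : addOrderOf (tatePoint hb c) = n) (hn : 7 ≤ n) :
    ∃ r s : F, b = r * c ∧ c = s * (r - 1) ∧ b ≠ c ∧ r ≠ 0 ∧ r ≠ 1 ∧ s ≠ 0 ∧ s ≠ 1 := by
  have hc : c ≠ 0 := fun hc =>
    nsmul_ne_zero_of_lt hb h (by omega : 0 < 4) (by omega) (tate_four_eq_zero hb hc)
  have hbc : b ≠ c := fun hc =>
    nsmul_ne_zero_of_lt hb h (by omega : 0 < 5) (by omega) (tate_five_eq_zero hb hc)
  have h6 : b - c ≠ c ^ 2 := fun hc =>
    nsmul_ne_zero_of_lt hb h (by omega : 0 < 6) (by omega) (tate_six_eq_zero hb hc)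
  have hd : b - c ≠ 0 := sub_ne_zero.mpr hbc
  refine ⟨b / c, c ^ 2 / (b - c), by field_simp, by field_simp, hbc, div_ne_zero hb hc, ?_,
    div_ne_zero (pow_ne_zero _ hc) hd, ?_⟩
  · rw [ne_eq, div_eq_one_iff_eq hc]; exact hbc
  · rw [ne_eq, div_eq_one_iff_eq hd]; exact fun h' => h6 h'.symm

/-- Order `7` forces `b = t³ - t²`, `c = t² - t`. -/
theorem tate_order_seven (h : addOrderOf (tatePoint hb c) = 7) :
    ∃ t : F, t ≠ 0 ∧ t ≠ 1 ∧ b = t ^ 3 - t ^ 2 ∧ c = t ^ 2 - t := by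
  obtain ⟨r, s, hbc, hcs, hne, hr0, hr1, hs0, hs1⟩ := exists_tate_rs hb h le_rfl
  have hc : c ≠ 0 := fun h0 => hb (by rw [hbc, h0, mul_zero])
  obtain ⟨h4, e4⟩ := tate_four_nsmul hb hbc hr1 hc
  obtain ⟨h3, e3⟩ := tate_three_nsmul (c := c) hb
  have e := nsmul_eq_neg_nsmul hb h (show 4 + 3 = 7 from rfl)
  rw [e4, e3, Affine.Point.neg_some, Affine.Point.some.injEq] at e
  exact ⟨r, hr0, hr1, by rw [hbc, ← e.1]; ring, by rw [← e.1]; ring⟩

/-- For a point of order `≥ 11` the parameters also satisfy `r ≠ s`. -/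
theorem tate_r_ne_s {n : ℕ} (h : addOrderOf (tatePoint hb c) = n) (hn : 8 ≤ n) {r s : F}
    (hbc : b = r * c) (hcs : c = s * (r - 1)) : r ≠ s := by
  rintro rfl
  apply nsmul_ne_zero_of_lt hb h (by omega : 0 < 7) (by omega)
  have hr : r ≠ 1 := fun h0 => hb (by rw [hbc, hcs, h0]; ring)
  have hc : c ≠ 0 := fun h0 => hb (by rw [hbc, h0, mul_zero])
  obtain ⟨h4, e4⟩ := tate_four_nsmul hb hbc hr hc
  obtain ⟨h3, e3⟩ := tate_three_nsmul (c := c) hb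
  rw [show (7 : ℕ) = 4 + 3 from rfl, add_nsmul, e4, e3]
  exact Affine.Point.add_of_Y_eq hcs.symm (by simp [hbc, hcs]; ring)

/-- Order `11`: the equation of `X₁(11)` in the `(r, s)` parameters. -/
theorem tate_order_eleven (h : addOrderOf (tatePoint hb c) = 11) :
    ∃ r s : F, b = r * c ∧ c = s * (r - 1) ∧ r ≠ 0 ∧ r ≠ 1 ∧ s ≠ 0 ∧ s ≠ 1 ∧ r ≠ s ∧
      r ^ 2 - r * s ^ 3 + 3 * r * s ^ 2 - 4 * r * s + s = 0 := by
  obtain ⟨r, s, hbc, hcs, hne, hr0, hr1, hs0, hs1⟩ := exists_tate_rs hb h (by omega)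
  refine ⟨r, s, hbc, hcs, hr0, hr1, hs0, hs1, tate_r_ne_s hb h (by omega) hbc hcs, ?_⟩
  obtain ⟨h5, e5⟩ := tate_five_nsmul hb hbc hcs hne
  obtain ⟨y6, h6, e6⟩ := tate_six_nsmul hb hbc hcs hne hs1
  have e := nsmul_eq_neg_nsmul hb h (show 6 + 5 = 11 from rfl)
  rw [e6, e5, Affine.Point.neg_some, Affine.Point.some.injEq] at e
  have e' := e.1
  have hs' : s - 1 ≠ 0 := sub_ne_zero.mpr hs1
  rw [hbc, hcs] at e'
  field_simp at e'
  linear_combination e'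

/-- Order `13`: the equation of `X₁(13)` in the `(r, s)` parameters. -/
theorem tate_order_thirteen (h : addOrderOf (tatePoint hb c) = 13) :
    ∃ r s : F, b = r * c ∧ c = s * (r - 1) ∧ r ≠ 0 ∧ r ≠ 1 ∧ s ≠ 0 ∧ s ≠ 1 ∧ r ≠ s ∧
      -r ^ 3 + r ^ 2 * (s ^ 4 - 5 * s ^ 3 + 9 * s ^ 2 - 4 * s + 2)
        + r * (s ^ 3 - 6 * s ^ 2 + 3 * s - 1) + s ^ 3 = 0 := by
  obtain ⟨r, s, hbc, hcs, hne, hr0, hr1, hs0, hs1⟩ := exists_tate_rs hb h (by omega)
  have hrs := tate_r_ne_s hb h (by omega) hbc hcs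
  refine ⟨r, s, hbc, hcs, hr0, hr1, hs0, hs1, hrs, ?_⟩
  obtain ⟨y6, h6, e6⟩ := tate_six_nsmul hb hbc hcs hne hs1
  obtain ⟨y7, h7, e7⟩ := tate_seven_nsmul hb hbc hcs hne hrs
  have e := nsmul_eq_neg_nsmul hb h (show 7 + 6 = 13 from rfl)
  rw [e6, e7, Affine.Point.neg_some, Affine.Point.some.injEq] at e
  have e' := e.1
  have hs' : s - 1 ≠ 0 := sub_ne_zero.mpr hs1
  have hd : r - s ≠ 0 := sub_ne_zero.mpr hrs
  rw [hbc, hcs] at e'
  field_simp at e'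
  refine (mul_eq_zero.mp (?_ : s * (r - 1) * (_) = 0)).resolve_left
    (mul_ne_zero hs0 (sub_ne_zero.mpr hr1))
  linear_combination e'

/-- Order `15`: the equation of `X₁(15)` in the `(r, s)` parameters. -/
theorem tate_order_fifteen (h : addOrderOf (tatePoint hb c) = 15) :
    ∃ r s : F, b = r * c ∧ c = s * (r - 1) ∧ r ≠ 0 ∧ r ≠ 1 ∧ s ≠ 0 ∧ s ≠ 1 ∧ r ≠ s ∧
      r * s - 2 * r + 1 ≠ 0 ∧
      r ^ 3 + r ^ 2 * (-s ^ 5 + 7 * s ^ 4 - 18 * s ^ 3 + 19 * s ^ 2 - 10 * s)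
        + r * (-s ^ 5 + 4 * s ^ 4 - 5 * s ^ 2 + 5 * s)
        + (-s ^ 5 + s ^ 4 - s ^ 3 + s ^ 2 - s) = 0 := by
  obtain ⟨r, s, hbc, hcs, hne, hr0, hr1, hs0, hs1⟩ := exists_tate_rs hb h (by omega)
  have hrs := tate_r_ne_s hb h (by omega) hbc hcs
  obtain ⟨h3, e3⟩ := tate_three_nsmul (c := c) hb
  obtain ⟨h5, e5⟩ := tate_five_nsmul hb hbc hcs hne
  have hd8 : r * s - 2 * r + 1 ≠ 0 := fun h0 => by
    have hx : r * s * (s - 1) = c := by linear_combination s * h0 - hcs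
    rcases (Affine.Point.X_eq_iff (h₁ := h5) (h₂ := h3)).mp hx with e | e <;>
      rw [← e5, ← e3] at e
    · refine nsmul_ne_zero_of_lt hb h (by omega : 0 < 2) (by omega) ?_
      rw [show (5 : ℕ) = 2 + 3 from rfl, add_nsmul] at e
      exact add_eq_right.mp e
    · refine nsmul_ne_zero_of_lt hb h (by omega : 0 < 8) (by omega) ?_
      rw [show (8 : ℕ) = 5 + 3 from rfl, add_nsmul, e, neg_add_cancel]
  refine ⟨r, s, hbc, hcs, hr0, hr1, hs0, hs1, hrs, hd8, ?_⟩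
  obtain ⟨y7, h7, e7⟩ := tate_seven_nsmul hb hbc hcs hne hrs
  obtain ⟨y8, h8, e8⟩ := tate_eight_nsmul hb hbc hcs hne hd8
  have e := nsmul_eq_neg_nsmul hb h (show 8 + 7 = 15 from rfl)
  rw [e7, e8, Affine.Point.neg_some, Affine.Point.some.injEq] at e
  have e' := e.1
  have hd : r - s ≠ 0 := sub_ne_zero.mpr hrs
  rw [hbc, hcs] at e'
  obtain ⟨d, hdd⟩ : ∃ d : F, d = r * s - 2 * r + 1 := ⟨_, rfl⟩
  rw [← hdd] at e'
  have hd0 : d ≠ 0 := hdd ▸ hd8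
  field_simp at e'
  rw [hdd] at e'
  refine (mul_eq_zero.mp (?_ : r * (r - 1) ^ 2 * (_) = 0)).resolve_left
    (mul_ne_zero hr0 (pow_ne_zero _ (sub_ne_zero.mpr hr1)))
  linear_combination e'

end FLTA.EllIsogeny
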